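import Fermat.Agent.S59.TW.Aut.Spec
import Fermat.Agent.S59.TW.H709.EsAct
import Fermat.Agent.S59.TW.H24.LocAct
import Fermat.Agent.S59.MFree.H761.FreeAbs
import Fermat.Agent.S59.Arch.WilesLevel

/-!
# S59 / cell TW, layer 3 (AUT): leaf MOD0 from CUSP (helper709)

`mod0_of_cusp : Mod0CuspStatement → Aut.Mod0Statement`, where `Mod0CuspStatement` says that the
localisation `V₀` of `Hom(Γ₀(N₀), 𝒪)` at the maximal ideal of the minimal package consists of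
parabolic classes (CUSP: `ρ̄` is irreducible).

Proof: `V₀ = e X` is stable under the `T_ℓ` (`e` commutes with them); by Eichler–Shimura the Hecke
ring `heckeAlgebra N₀ 2 Smin` acts on `V₀` (`TW.H709.exists_esAct_TK`); the `T_ℓ - c_ℓ` are
nilpotent on `V₀ / 𝔪 V₀` (`IsLocPart.nilp_T`), so the action extends to the localisation `T_min`
(`TW.H24.exists_algHom_of_nilp_T`).

* `mod0_core` : the same for one package, the level `N`, the set `S` and `V` being arbitrary;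
* `exists_algHom_of_equiv` : the LOC-ACT lemma of helper24 transported along a linear equivalence
  `ε : M' ≃ V` (Lean: for a submodule `V` of `Hom(Γ, 𝒪)` the instance `Ring (End V)` is not found
  and the unifier is slow, so we apply LOC-ACT to a coordinate model `M'` of `V`).
-/

set_option autoImplicit false

open Polynomial IsLocalRing CongruenceSubgroup
open scoped MatrixGroups

namespace Fermat.Agent.S59.TW.Aut.H709

open Fermat.Agent.S59.Arch Fermat.Agent.S59.TW.H959 Fermat.Agent.S59.TW.H653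
open Fermat.Agent.S59.TW.Aut CuspForm ModularCurve.Period

/-- A localisation `V = e X` is stable under the `T_ℓ`, `ℓ ∤ M`. -/
theorem tK_mem_of_isLocPart {M : ℕ} {K : Subgroup SL(2, ℤ)} {hK : IsMid M K}
    {𝒪 : Type} [CommRing 𝒪] [IsLocalRing 𝒪] {Tset Uset : Set (ℕ × 𝒪)}
    {V : Submodule 𝒪 (Additive K →+ 𝒪)} (hV : IsLocPart hK Tset Uset V)
    (ℓ : ℕ) (hℓ : ℓ.Prime) (hℓM : ¬ ℓ ∣ M) (v : Additive K →+ 𝒪) (hv : v ∈ V) :
    @TK M K 𝒪 _ ℓ ⟨hℓ.ne_zero⟩ v ∈ V := by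
  obtain ⟨e, -, he_mem, he_id, heT, -⟩ := hV.exists_proj
  have : Fact ℓ.Prime := ⟨hℓ⟩
  have h1 := heT ℓ hℓM v
  rw [he_id v hv] at h1
  have h2 := he_mem (TK M K ℓ v)
  rw [h1] at h2
  exact h2

/-! ## Generalities -/

section Gen

variable {R : Type*} [CommRing R] {X M' : Type*} [AddCommGroup X] [Module R X]
  [AddCommGroup M'] [Module R M']

/-- A linear map maps `I X` into `I M'`. -/
theorem map_mem_smul_top (I : Ideal R) (r : X →ₗ[R] M') {x : X}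
    (hx : x ∈ (I • ⊤ : Submodule R X)) : r x ∈ (I • ⊤ : Submodule R M') := by
  refine Submodule.smul_induction_on hx ?_ ?_
  · intro a ha n _
    rw [map_smul]
    exact Submodule.smul_mem_smul ha Submodule.mem_top
  · intro a b ha hb
    rw [map_add]
    exact Submodule.add_mem _ ha hb

/-- Powers of `φ - c` in `End M'` are iterates of `z ↦ φ z - c z`. -/
theorem pow_sub_algebraMap_apply (φ : Module.End R M') (c : R) (k : ℕ) (y : M') :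
    ((φ - algebraMap R (Module.End R M') c) ^ k) y = (fun z => φ z - c • z)^[k] y := by
  rw [Module.End.pow_apply]
  rfl

end Gen

/-! ## LOC-ACT along a linear equivalence -/

section Transport

variable {N : ℕ} [NeZero N] {S : Set ℕ}
  {𝒪 : Type} [CommRing 𝒪] [IsDomain 𝒪] [IsDiscreteValuationRing 𝒪]
  [IsAdicComplete (maximalIdeal 𝒪) 𝒪] [Fact (HasIntegralStructure N 2)]
  {V : Type*} [AddCommMonoid V] [Module 𝒪 V]
  {M' : Type*} [AddCommGroup M'] [Module 𝒪 M'] [Module.Finite 𝒪 M']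

/-- The LOC-ACT lemma (`TW.H24.exists_algHom_of_nilp_T`) for a module `V` with a coordinate model
`ε : M' ≃ V`. -/
theorem exists_algHom_of_equiv (hNS : ∀ q : ℕ, q.Prime → q ∣ N → q ∈ S)
    (θ : heckeAlgebra N 2 S →+* ResidueField 𝒪) (ε : M' ≃ₗ[𝒪] V)
    (Ψ : heckeAlgebra N 2 S →+* Module.End 𝒪 V)
    (hT : ∀ (ℓ : ℕ) (hℓ : ℓ.Prime) (hℓN : ¬ ℓ ∣ N) (hℓS : ℓ ∉ S),
      ∃ c : 𝒪, residue 𝒪 c = θ (heckeAlgebra.T hℓ hℓN hℓS) ∧ ∃ m : ℕ, ∀ y : M',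
        (fun z => ε.symm (Ψ (heckeAlgebra.T hℓ hℓN hℓS) (ε z)) - c • z)^[m] y ∈
          (maximalIdeal 𝒪 • ⊤ : Submodule 𝒪 M')) :
    ∃ a : heckeLocal N S 𝒪 θ →ₐ[𝒪] Module.End 𝒪 V,
      ∀ t, a (heckeLocal.π N S 𝒪 θ t) = Ψ t := by
  let Ψ' : heckeAlgebra N 2 S →+* Module.End 𝒪 M' :=
    (ε.symm.conjRingEquiv : Module.End 𝒪 V →+* Module.End 𝒪 M').comp Ψ
  have hΨ' : ∀ t (z : M'), Ψ' t z = ε.symm (Ψ t (ε z)) := fun t z => rfl
  obtain ⟨a', ha'⟩ := Fermat.Agent.S59.TW.H24.exists_algHom_of_nilp_T N S 𝒪 θ Ψ' hNS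
    (fun ℓ hℓ hℓN hℓS => by
      obtain ⟨c, hc, m, hm⟩ := hT ℓ hℓ hℓN hℓS
      refine ⟨c, hc, m, fun y => ?_⟩
      rw [pow_sub_algebraMap_apply]
      exact hm y)
  refine ⟨((ε.conjAlgEquiv 𝒪 : Module.End 𝒪 M' ≃ₐ[𝒪] Module.End 𝒪 V) :
    Module.End 𝒪 M' →ₐ[𝒪] Module.End 𝒪 V).comp a', fun t => ?_⟩
  refine LinearMap.ext fun v => ?_
  rw [AlgHom.comp_apply, ha']
  show ε (Ψ' t (ε.symm v)) = Ψ t v
  rw [hΨ', ε.apply_symm_apply, ε.apply_symm_apply]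

end Transport

/-! ## The core -/

section Core

variable {N : ℕ} [NeZero N] {S : Set ℕ}
  {𝒪 : Type} [CommRing 𝒪] [IsDomain 𝒪] [IsDiscreteValuationRing 𝒪]
  [IsAdicComplete (maximalIdeal 𝒪) 𝒪] [CharZero 𝒪] [Fact (HasIntegralStructure N 2)]

omit [NeZero N] [IsAdicComplete (maximalIdeal 𝒪) 𝒪] [CharZero 𝒪]
  [Fact (HasIntegralStructure N 2)] in
/-- The nilpotency clause of `IsLocPart`, in a coordinate model `ε : M' ≃ V` of `V`. -/
theorem iterate_mem_of_isLocPart {M' : Type*} [AddCommGroup M'] [Module 𝒪 M']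
    {Tset Uset : Set (ℕ × 𝒪)} (V : Submodule 𝒪 (Additive (Gamma0 N) →+ 𝒪))
    (hV : IsLocPart (isMid_Gamma0 N) Tset Uset V) (ε : M' ≃ₗ[𝒪] V)
    (φ : Module.End 𝒪 V) (ℓ : ℕ) [Fact ℓ.Prime] (c : 𝒪) (hc : (ℓ, c) ∈ Tset)
    (hφ : ∀ v : V, ((φ v : V) : Additive (Gamma0 N) →+ 𝒪) = TK N (Gamma0 N) ℓ v) :
    ∃ m : ℕ, ∀ y : M', (fun z => ε.symm (φ (ε z)) - c • z)^[m] y ∈
      (maximalIdeal 𝒪 • ⊤ : Submodule 𝒪 M') := by
  obtain ⟨e, -, he_mem, he_id, -⟩ := hV.exists_proj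
  obtain ⟨m, hm⟩ := hV.nilp_T ℓ c hc
  refine ⟨m, fun y => ?_⟩
  -- the inclusion `M' → X` and its retraction
  let ι : M' →ₗ[𝒪] (Additive (Gamma0 N) →+ 𝒪) := V.subtype.comp ε.toLinearMap
  let r : (Additive (Gamma0 N) →+ 𝒪) →ₗ[𝒪] M' :=
    ε.symm.toLinearMap.comp (e.codRestrict V he_mem)
  have hι : ∀ z : M', ι z = ((ε z : V) : Additive (Gamma0 N) →+ 𝒪) := fun z => rfl
  have hrι : ∀ z : M', r (ι z) = z := by
    intro z
    show ε.symm (e.codRestrict V he_mem (ι z)) = z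
    have h1 : e.codRestrict V he_mem (ι z) = ε z := Subtype.ext (he_id _ (ε z).2)
    rw [h1, ε.symm_apply_apply]
  have hstep : ∀ z : M', ι (ε.symm (φ (ε z)) - c • z) =
      TK N (Gamma0 N) ℓ (ι z) - c • ι z := by
    intro z
    rw [map_sub, map_smul, hι, ε.apply_symm_apply, hφ]
    rfl
  have hiter : ∀ (k : ℕ) (z : M'), ι ((fun z => ε.symm (φ (ε z)) - c • z)^[k] z) =
      (fun y => TK N (Gamma0 N) ℓ y - c • y)^[k] (ι z) := by
    intro k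
    induction k with
    | zero => intro z; rfl
    | succ k ih =>
      intro z
      rw [Function.iterate_succ_apply, Function.iterate_succ_apply, ih, hstep]
  have h2 := hm (ι y) (ε y).2
  rw [← hiter m y] at h2
  have h3 := map_mem_smul_top (maximalIdeal 𝒪) r h2
  rw [hrι] at h3
  exact h3

/-- **MOD0, core.**  Level `N`, `S ⊇ primes(N)`, `θ` a residual character of the Hecke ring,
`V ⊆ Hom(Γ₀(N), 𝒪)` a localisation (`IsLocPart`) at a set `Tset` containing a lift of `θ(T_ℓ)` for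
every good `ℓ`, consisting of parabolic classes.  Then `heckeLocal N S 𝒪 θ` acts on `V`,
`T_ℓ ↦ T_ℓ`. -/
theorem mod0_core (hNS : ∀ q : ℕ, q.Prime → q ∣ N → q ∈ S)
    (θ : heckeAlgebra N 2 S →+* ResidueField 𝒪) {Tset Uset : Set (ℕ × 𝒪)}
    (hTset : ∀ (ℓ : ℕ) (hℓ : ℓ.Prime) (hℓN : ¬ ℓ ∣ N) (hℓS : ℓ ∉ S),
      ∃ c : 𝒪, residue 𝒪 c = θ (heckeAlgebra.T hℓ hℓN hℓS) ∧ (ℓ, c) ∈ Tset)
    (V : Submodule 𝒪 (Additive (Gamma0 N) →+ 𝒪))
    (hV : IsLocPart (isMid_Gamma0 N) Tset Uset V)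
    (hcusp : ∀ v ∈ V, IsParabolicHom (Gamma0 N) v) :
    ∃ a : heckeLocal N S 𝒪 θ →ₐ[𝒪] Module.End 𝒪 V,
      ∀ (ℓ : ℕ) (hℓ : ℓ.Prime) (hℓN : ¬ ℓ ∣ N) (hℓS : ℓ ∉ S) (v : V),
        ((a (heckeLocal.π N S 𝒪 θ (heckeAlgebra.T hℓ hℓN hℓS)) v : V) :
          Additive (Gamma0 N) →+ 𝒪) = tOp N (Gamma0 N) 𝒪 ℓ hℓ v := by
  have : (Gamma0 N).FiniteIndex := Subgroup.finiteIndex_of_le (isMid_Gamma0 N).ge
  obtain ⟨hfin, hfree⟩ :=
    Fermat.Agent.S59.MFree.H761.finite_free_submodule (O := 𝒪) (Gamma0 N) V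
  obtain ⟨Ψ, hΨ⟩ := Fermat.Agent.S59.TW.H709.exists_esAct_TK 𝒪 hNS V hcusp
    (fun ℓ hℓ hℓN _ v hv => tK_mem_of_isLocPart hV ℓ hℓ hℓN v hv)
  -- a coordinate model of `V`
  let b := Module.Free.chooseBasis 𝒪 V
  let ε : (Module.Free.ChooseBasisIndex 𝒪 V →₀ 𝒪) ≃ₗ[𝒪] V := b.repr.symm
  have hfin' : Module.Finite 𝒪 (Module.Free.ChooseBasisIndex 𝒪 V →₀ 𝒪) :=
    Module.Finite.equiv b.repr
  obtain ⟨a, ha⟩ := exists_algHom_of_equiv hNS θ ε Ψ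
    (fun ℓ hℓ hℓN hℓS => by
      obtain ⟨c, hc, hcT⟩ := hTset ℓ hℓ hℓN hℓS
      have : Fact ℓ.Prime := ⟨hℓ⟩
      exact ⟨c, hc, iterate_mem_of_isLocPart V hV ε (Ψ (heckeAlgebra.T hℓ hℓN hℓS)) ℓ c hcT
        (fun v => hΨ ℓ hℓ hℓN hℓS v)⟩)
  refine ⟨a, fun ℓ hℓ hℓN hℓS v => ?_⟩
  rw [ha]
  exact hΨ ℓ hℓ hℓN hℓS v

end Core

/-- **CUSP at the minimal level**: the localisation `V₀` consists of parabolic classes. -/
def Mod0CuspStatement : Prop :=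
  ∀ (p : ℕ) [Fact p.Prime]
    (𝒪 : Type) [CommRing 𝒪] [IsDomain 𝒪] [IsDiscreteValuationRing 𝒪]
    [IsAdicComplete (maximalIdeal 𝒪) 𝒪] [Finite (ResidueField 𝒪)] [CharZero 𝒪]
    (ρbar : ResidualGaloisRep (ResidueField 𝒪)) (Smin : Finset ℕ)
    (_h : ResidualHyp p 𝒪 ρbar Smin) (t : PType)
    (_ht : (t = .flat ∧ (GaloisRepAdic.ofResidualGaloisRep ρbar).IsFlatAt p) ∨
      (t = .sord ∧ (GaloisRepAdic.ofResidualGaloisRep ρbar).IsStrictOrdinaryAt p ∧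
        ¬ (GaloisRepAdic.ofResidualGaloisRep ρbar).IsFlatAt p))
    [NeZero (wilesLevel p t Smin Smin)]
    (P₀ : HeckePkg p 𝒪 ρbar t Smin Smin)
    (V₀ : Submodule 𝒪 (Additive (Gamma0 (wilesLevel p t Smin Smin)) →+ 𝒪)),
    IsMinPart P₀ V₀ → ∀ v ∈ V₀, IsParabolicHom (Gamma0 (wilesLevel p t Smin Smin)) v

/-- **MOD0 from CUSP.** -/
theorem mod0_of_cusp (hcusp : Mod0CuspStatement) : Mod0Statement := by
  intro p _ 𝒪 _ _ _ _ _ _ ρbar Smin h t ht _ P₀ V₀ hV₀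
  have hNS : ∀ q : ℕ, q.Prime → q ∣ wilesLevel p t Smin Smin → q ∈ (↑Smin : Set ℕ) :=
    fun q hq hdvd => Finset.mem_coe.mpr
      (mem_of_prime_dvd_wilesLevel (Fact.out : p.Prime) h.hSmin h.hSmin h.hpSmin
        (Finset.Subset.refl _) q hq hdvd)
  have := P₀.integral
  obtain ⟨a, ha⟩ := mod0_core hNS P₀.θ (Tset := TsetOf P₀) (Uset := ∅)
    (fun ℓ hℓ hℓN hℓS => by
      obtain ⟨c, hc⟩ := residue_surjective (P₀.θ (heckeAlgebra.T hℓ hℓN hℓS))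
      exact ⟨c, hc, hℓ, hℓN, hℓS, hc⟩)
    V₀ hV₀ (hcusp p 𝒪 ρbar Smin h t ht P₀ V₀ hV₀)
  refine ⟨a, fun ℓ hℓ hℓN hℓS v => ?_⟩
  rw [P₀.hπ]
  exact ha ℓ hℓ hℓN hℓS v

end Fermat.Agent.S59.TW.Aut.H709
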