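import Fermat.Agent.S59.TW.Aut.H709.Mod0Glue
import Fermat.Agent.S59.TW.Aut.H186.AuxPrimePkg
import Fermat.Agent.S59.TW.H324.CuspLocPart

/-!
# S59 / cell TW, layer 3 (AUT): leaf MOD0 (helper709)

`mod0 : Aut.Mod0Statement` VERBATIM: the Hecke ring `T_min` of the minimal package acts on the
localisation `V₀` of `Hom(Γ₀(N₀), 𝒪)`, `T_ℓ ↦ T_ℓ`.

* CUSP (`mod0Cusp : Mod0CuspStatement`): `V₀` consists of parabolic classes — a non-Eisenstein
  prime `ℓ ≡ 1 mod N₀` (`Aut.H186.exists_nonEis_tset_h186`, from `H424.nePrimeK_h424`) and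
  `TW.H324.isLocPart_cuspidal'`;
* the glue `mod0_of_cusp` (`Mod0Glue.lean`): Eichler–Shimura (`TW.H709.esAct`) + LOC-ACT
  (`TW.H24.exists_algHom_of_nilp_T`).
-/

set_option autoImplicit false

open Polynomial IsLocalRing CongruenceSubgroup
open scoped MatrixGroups

namespace Fermat.Agent.S59.TW.Aut.H709

open Fermat.Agent.S59.Arch Fermat.Agent.S59.TW.H959 Fermat.Agent.S59.TW.H653
open Fermat.Agent.S59.TW.Aut CuspForm ModularCurve.Period

/-- **CUSP at the minimal level.** -/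
theorem mod0Cusp : Mod0CuspStatement := by
  intro p _ 𝒪 _ _ _ _ _ _ ρbar Smin h t ht _ P₀ V₀ hV₀
  have hN0 : 0 < wilesLevel p t Smin Smin := Nat.pos_of_ne_zero (NeZero.ne _)
  obtain ⟨ℓ, c, hmem, hℓ, hℓN, -, -, hℓ1, -, hc⟩ :=
    Fermat.Agent.S59.TW.Aut.H186.exists_nonEis_tset_h186 h (Finset.Subset.refl Smin) P₀ ∅
      (wilesLevel p t Smin Smin) hN0
  have : Fact ℓ.Prime := ⟨hℓ⟩
  intro v hv
  exact (Fermat.Agent.S59.TW.H324.isLocPart_cuspidal' (isMid_Gamma0 _) hV₀ hℓN hℓ1 hmem hc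
    v hv).1

/-- **Leaf MOD0.** -/
theorem mod0 : Mod0Statement := mod0_of_cusp mod0Cusp

end Fermat.Agent.S59.TW.Aut.H709
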